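import Fermat.Agent.S55.PT.Setup
import Fermat.Agent.S55.Bridge.Krasner
import Fermat.Agent.S55.Bridge.Cyclo

/-!
# S55 / layer KL, leaf KL-A2 (`LocalKummerEmbSpec`), core                    (helper374)

`ℚ̄_qˣ` (as a representation of the Prelude's local Galois group `Gl q`) is smooth for the local
level system, `p`-divisible, and `μ_p = F_p(χ_cyc)` embeds equivariantly onto its `p`-torsion.

Everything is stated in unfolded form (only `PT` vocabulary), so that the file does not depend on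
the location of the KL interface.
-/

set_option autoImplicit false
set_option linter.style.haveILetI false

noncomputable section

namespace Fermat.Agent.S55.Local.H374

open groupCohomology ExtCitation Fermat.Agent.S55.PT Fermat.Agent.S55.Bridge

/-- `ℚ̄_qˣ` (written additively) as a representation of the Prelude's local Galois group
(the same expression as `KL.unitsA`). -/
abbrev unitsQ (q : Nat.Primes) : Rep.{0, 0, 0} ℤ (Gl q) :=
  letI : Fact (q : ℕ).Prime := ⟨q.2⟩
  (Rep.ofAlgebraAutOnUnits ℚ_[(q : ℕ)] (PadicAlgCl (q : ℕ)) :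
    Rep ℤ (PadicAlgCl (q : ℕ) ≃ₐ[ℚ_[(q : ℕ)]] PadicAlgCl (q : ℕ)))

/-- **KL-A2, part 1**: `ℚ̄_qˣ` is smooth (Krasner). -/
theorem unitsQ_isSmooth (q : Nat.Primes) : (localLevels q).IsSmooth (unitsQ q) := by
  haveI : Fact (q : ℕ).Prime := ⟨q.2⟩
  haveI : Algebra.IsAlgebraic ℚ (AlgebraicClosure ℚ) := AlgebraicClosure.isAlgebraic ℚ
  intro a
  let u : (PadicAlgCl (q : ℕ))ˣ := Additive.toMul a
  obtain ⟨b, hb⟩ := exists_global_generator (q : ℕ) (u : PadicAlgCl (q : ℕ))
  haveI : FiniteDimensional ℚ (IntermediateField.adjoin ℚ {b}) :=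
    IntermediateField.adjoin.finiteDimensional (Algebra.IsIntegral.isIntegral b)
  refine ⟨_, ⟨IntermediateField.adjoin ℚ {b}, inferInstance, rfl⟩, ?_⟩
  intro s hs
  let s' : PadicAlgCl (q : ℕ) ≃ₐ[ℚ_[(q : ℕ)]] PadicAlgCl (q : ℕ) := s
  have hsb : localGaloisToGlobal (q : ℕ) s' b = b := by
    have hs' : rl q s ∈ (IntermediateField.adjoin ℚ {b}).fixingSubgroup := hs
    exact (IntermediateField.mem_fixingSubgroup_iff _ _).1 hs' b
      (IntermediateField.subset_adjoin ℚ _ (Set.mem_singleton b))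
  have hsu : s' (u : PadicAlgCl (q : ℕ)) = u := fixes_adjoin_of_fixes (q : ℕ) s' b hsb _ hb
  apply Additive.toMul.injective
  apply Units.ext
  exact hsu

/-- **KL-A2, part 2**: `ℚ̄_qˣ` is divisible. -/
theorem unitsQ_divisible (n : ℕ) (hn : 0 < n) (q : Nat.Primes) :
    ∀ b : unitsQ q, ∃ c : unitsQ q, n • c = b := by
  haveI : Fact (q : ℕ).Prime := ⟨q.2⟩
  intro b
  let u : (PadicAlgCl (q : ℕ))ˣ := Additive.toMul b
  obtain ⟨v, hv⟩ := IsAlgClosed.exists_pow_nat_eq (u : PadicAlgCl (q : ℕ)) hn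
  have hv0 : v ≠ 0 := by
    rintro rfl
    rw [zero_pow hn.ne'] at hv
    exact u.ne_zero hv.symm
  refine ⟨Additive.ofMul (Units.mk0 v hv0), ?_⟩
  apply Additive.toMul.injective
  apply Units.ext
  show ((Units.mk0 v hv0) ^ n : (PadicAlgCl (q : ℕ))ˣ).1 = (u : PadicAlgCl (q : ℕ))
  rw [Units.val_pow_eq_pow_val, Units.val_mk0, hv]

/-- additive maps out of `ZMod n` are determined by the image of `1` -/
theorem zmod_addMonoidHom_ext {A : Type*} [AddCommGroup A] {n : ℕ} (f g : ZMod n →+ A)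
    (h : f 1 = g 1) : f = g := by
  have hfg : f.comp (Int.castAddHom (ZMod n)) = g.comp (Int.castAddHom (ZMod n)) := by
    ext
    simpa using h
  ext x
  obtain ⟨k, rfl⟩ := ZMod.intCast_surjective x
  exact DFunLike.congr_fun hfg k

variable (p : ℕ) [Fact p.Prime]

/-- **KL-A2, part 3**: `μ_p` embeds equivariantly onto the `p`-torsion of `ℚ̄_qˣ`. -/
theorem exists_kummerEmb (q : Nat.Primes) :
    ∃ ι : muLoc p q →+ unitsQ q, Function.Injective ι ∧
      (∀ (g : Gl q) (m : muLoc p q), ι ((muLoc p q).ρ g m) = (unitsQ q).ρ g (ι m)) ∧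
      ∀ b : unitsQ q, p • b = 0 ↔ b ∈ Set.range ι := by
  haveI : Fact (q : ℕ).Prime := ⟨q.2⟩
  have hp : p.Prime := Fact.out
  haveI : NeZero p := ⟨hp.ne_zero⟩
  -- a primitive `p`-th root of unity in `ℚ̄` and its image in `ℚ̄_q`
  obtain ⟨ζ₀, hζ₀⟩ := HasEnoughRootsOfUnity.exists_primitiveRoot (AlgebraicClosure ℚ) p
  have hζ : IsPrimitiveRoot (padicEmbedding (q : ℕ) ζ₀) p :=
    hζ₀.map_of_injective (padicEmbedding (q : ℕ)).toRingHom.injective
  set ζ : PadicAlgCl (q : ℕ) := padicEmbedding (q : ℕ) ζ₀ with hζdef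
  have hζ0 : ζ ≠ 0 := hζ.ne_zero hp.ne_zero
  let ζu : (PadicAlgCl (q : ℕ))ˣ := Units.mk0 ζ hζ0
  have hζu : IsPrimitiveRoot ζu p := by
    rw [← IsPrimitiveRoot.coe_units_iff]
    exact hζ
  let z : unitsQ q := Additive.ofMul ζu
  have hz : (p : ℤ) • z = 0 := by
    rw [natCast_zsmul]
    apply Additive.toMul.injective
    show ζu ^ p = 1
    exact hζu.pow_eq_one
  let ι : muLoc p q →+ unitsQ q := ZMod.lift p ⟨zmultiplesHom (unitsQ q) z, by simpa using hz⟩
  have hι_int : ∀ k : ℤ, ι ((k : ZMod p) : muLoc p q) = k • z := fun k => by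
    show ZMod.lift p _ (k : ZMod p) = k • z
    rw [ZMod.lift_coe]
    rfl
  have hι_one : ι (1 : ZMod p) = z := by
    have h := hι_int 1
    rwa [Int.cast_one, one_zsmul] at h
  -- the Galois action on `ζ`
  have hgζ : ∀ g : Gl q, (unitsQ q).ρ g z
      = ((((cycloChar p (rl q g) : (ZMod p)ˣ) : ZMod p).val : ℕ) : ℤ) • z := by
    intro g
    let g' : PadicAlgCl (q : ℕ) ≃ₐ[ℚ_[(q : ℕ)]] PadicAlgCl (q : ℕ) := g
    have hζ₀0 : ζ₀ ≠ 0 := hζ₀.ne_zero hp.ne_zero
    have hmem : Units.mk0 ζ₀ hζ₀0 ∈ rootsOfUnity p (AlgebraicClosure ℚ) := by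
      rw [mem_rootsOfUnity]
      apply Units.ext
      rw [Units.val_pow_eq_pow_val, Units.val_mk0, Units.val_one]
      exact hζ₀.pow_eq_one
    have h1 := cycloChar_spec p (localGaloisToGlobal (q : ℕ) g') hmem
    rw [Units.val_mk0] at h1
    have h2 : g' ζ = ζ ^ ((cycloChar p (localGaloisToGlobal (q : ℕ) g') : (ZMod p)ˣ) : ZMod p).val := by
      rw [hζdef, ← padicEmbedding_localGaloisToGlobal, h1, map_pow]
    rw [natCast_zsmul]
    apply Additive.toMul.injective
    apply Units.ext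
    show g' ζ = ((ζu ^ (((cycloChar p (rl q g) : (ZMod p)ˣ) : ZMod p).val) :
      (PadicAlgCl (q : ℕ))ˣ) : PadicAlgCl (q : ℕ))
    rw [Units.val_pow_eq_pow_val]
    exact h2
  refine ⟨ι, ?_, ?_, ?_⟩
  · -- injectivity
    rw [injective_iff_map_eq_zero]
    intro m hm
    obtain ⟨k, rfl⟩ := ZMod.intCast_surjective (m : ZMod p)
    rw [hι_int] at hm
    have h1 : ζu ^ k = 1 := congrArg Additive.toMul hm
    rw [hζu.zpow_eq_one_iff_dvd] at h1
    exact (ZMod.intCast_zmod_eq_zero_iff_dvd k p).2 h1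
  · -- equivariance
    intro g m
    let φ₁ : ZMod p →+ unitsQ q :=
      (ι : ZMod p →+ unitsQ q).comp ((muLoc p q).ρ g : ZMod p →ₗ[ZMod p] ZMod p).toAddMonoidHom
    let φ₂ : ZMod p →+ unitsQ q :=
      (((unitsQ q).ρ g : unitsQ q →ₗ[ℤ] unitsQ q).toAddMonoidHom).comp (ι : ZMod p →+ unitsQ q)
    have h12 : φ₁ = φ₂ := by
      apply zmod_addMonoidHom_ext
      show ι ((muLoc p q).ρ g (1 : ZMod p)) = (unitsQ q).ρ g (ι (1 : ZMod p))
      rw [hι_one, hgζ g]
      have hρ : (muLoc p q).ρ g (1 : ZMod p)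
          = ((((((cycloChar p (rl q g) : (ZMod p)ˣ) : ZMod p).val : ℕ) : ℤ) : ZMod p) :
              ZMod p) := by
        show ((cycloChar p (rl q g) : (ZMod p)ˣ) : ZMod p) • (1 : ZMod p) = _
        rw [smul_eq_mul, mul_one, Int.cast_natCast, ZMod.natCast_val, ZMod.cast_id]
      rw [hρ]
      exact hι_int _
    exact DFunLike.congr_fun h12 m
  · -- the range is the `p`-torsion
    intro b
    constructor
    · intro hb
      let u : (PadicAlgCl (q : ℕ))ˣ := Additive.toMul b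
      have hu : u ^ p = 1 := congrArg Additive.toMul hb
      have hu' : (u : PadicAlgCl (q : ℕ)) ^ p = 1 := by
        rw [← Units.val_pow_eq_pow_val, hu, Units.val_one]
      obtain ⟨i, -, hi⟩ := hζ.eq_pow_of_pow_eq_one hu'
      refine ⟨((i : ℤ) : ZMod p), ?_⟩
      rw [hι_int, natCast_zsmul]
      apply Additive.toMul.injective
      apply Units.ext
      show ((ζu ^ i : (PadicAlgCl (q : ℕ))ˣ) : PadicAlgCl (q : ℕ)) = u
      rw [Units.val_pow_eq_pow_val]
      exact hi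
    · rintro ⟨m, rfl⟩
      rw [← map_nsmul]
      have : p • (m : ZMod p) = 0 := by
        rw [nsmul_eq_mul, CharP.cast_eq_zero, zero_mul]
      rw [this, map_zero]

end Fermat.Agent.S55.Local.H374

end
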