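import Fermat.Agent.S55.L.H661.IntClosure
import Fermat.Agent.S55.L.H661.UnramNorm

/-!
# S55, layer L, leaf UR4 (helper374): norms of units in an unramified extension, field form

`R` a complete discrete valuation ring with finite residue field, `K = Frac R`, `L / K` a finite
separable extension which is *unramified* in the sense that every `x ∈ Lˣ` is a unit of the ring
of integers of `L` times an element of `Kˣ`.  Then every unit of `R` is the norm of a unit of the
ring of integers of `L`.

The proof transports the abstract statement of helper661
(`Fermat.Agent.S55.L.H661.unitsMap_norm_surjective_of_map_maximalIdeal_eq`) to the fields.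
-/

set_option autoImplicit false
set_option linter.unusedSectionVars false
set_option linter.style.haveILetI false

namespace Fermat.Agent.S55.Local.H374

open IsLocalRing
open scoped nonZeroDivisors

section Core

variable (R K : Type) [CommRing R] [IsDomain R] [IsDiscreteValuationRing R]
  [IsAdicComplete (maximalIdeal R) R] [Finite (ResidueField R)]
  [Field K] [Algebra R K] [IsFractionRing R K]
  (L : Type) [Field L] [Algebra K L] [FiniteDimensional K L] [Algebra.IsSeparable K L]
  [Algebra R L] [IsScalarTower R K L]

/-- The unramifiedness hypothesis in field form: every nonzero `x : L` is an element of `Kˣ`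
times a unit of the integral closure of `R` in `L`. -/
def FieldUnram : Prop :=
  ∀ x : L, x ≠ 0 → ∃ y : K, y ≠ 0 ∧ IsIntegral R (x * (algebraMap K L y)⁻¹) ∧
    IsIntegral R (x⁻¹ * algebraMap K L y)

variable {R K L}

/-- Under `FieldUnram`, the maximal ideal of `R` generates the maximal ideal of the integral
closure of `R` in `L`. -/
theorem map_maximalIdeal_eq_of_fieldUnram (hunr : FieldUnram R K L)
    [IsLocalRing (integralClosure R L)] :
    Ideal.map (algebraMap R (integralClosure R L)) (maximalIdeal R) =
      maximalIdeal (integralClosure R L) := by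
  apply le_antisymm
  · exact Fermat.Agent.S55.L.H661.intClosure_map_maximalIdeal_le R K L (integralClosure R L)
  · intro x hx
    by_cases hx0 : x = 0
    · rw [hx0]; exact Ideal.zero_mem _
    have hxL : (x : L) ≠ 0 := fun h => hx0 (Subtype.ext h)
    obtain ⟨y, hy0, hw, hw'⟩ := hunr (x : L) hxL
    have hyL : algebraMap K L y ≠ 0 := by
      simpa using hy0
    -- `y = x * (x⁻¹ * y)` is integral
    have hyint : IsIntegral R (algebraMap K L y) := by
      have h1 : algebraMap K L y = (x : L) * ((x : L)⁻¹ * algebraMap K L y) := by
        field_simp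
      rw [h1]
      exact x.2.mul hw'
    have hyintK : IsIntegral R y :=
      (isIntegral_algebraMap_iff (algebraMap K L).injective).mp hyint
    obtain ⟨r, hr⟩ := IsIntegrallyClosed.isIntegral_iff.mp hyintK
    -- `r` is not a unit
    have hrm : r ∈ maximalIdeal R := by
      rw [mem_maximalIdeal, mem_nonunits_iff]
      intro hru
      obtain ⟨s, hs⟩ := hru.exists_right_inv
      have hyinv : (algebraMap K L y)⁻¹ = algebraMap R L s := by
        apply inv_eq_of_mul_eq_one_right
        rw [← hr, ← IsScalarTower.algebraMap_apply R K L, ← map_mul, hs, map_one]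
      have hxinv : IsIntegral R ((x : L)⁻¹) := by
        have h1 : (x : L)⁻¹ = ((x : L)⁻¹ * algebraMap K L y) * (algebraMap K L y)⁻¹ := by
          field_simp
        rw [h1, hyinv]
        exact hw'.mul isIntegral_algebraMap
      have hxu : IsUnit x := by
        refine IsUnit.of_mul_eq_one ⟨(x : L)⁻¹, hxinv⟩ ?_
        apply Subtype.ext
        simp [hxL]
      exact ((mem_maximalIdeal x).mp hx) hxu
    -- `x = w * r`
    have hxeq : x = ⟨(x : L) * (algebraMap K L y)⁻¹, hw⟩ * algebraMap R (integralClosure R L) r := by
      apply Subtype.ext
      have : ((algebraMap R (integralClosure R L) r : integralClosure R L) : L) =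
          algebraMap K L y := by
        rw [← hr, ← IsScalarTower.algebraMap_apply R K L]
        rfl
      simp only [MulMemClass.coe_mul, this]
      field_simp
    rw [hxeq]
    exact Ideal.mul_mem_left _ _ (Ideal.mem_map_of_mem _ hrm)

/-- **UR4, field form.**  In an unramified extension every unit of `R` is the norm of a unit of
the ring of integers of `L`. -/
theorem exists_integral_norm_eq_of_fieldUnram (hunr : FieldUnram R K L)
    (u : K) (hu : IsIntegral R u) (hu' : IsIntegral R u⁻¹) (hu0 : u ≠ 0) :
    ∃ w : L, w ≠ 0 ∧ IsIntegral R w ∧ IsIntegral R w⁻¹ ∧ Algebra.norm K w = u := by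
  haveI hloc : IsLocalRing (integralClosure R L) :=
    Fermat.Agent.S55.L.H661.intClosure_isLocalRing R K L (integralClosure R L)
  haveI : Module.Finite R (integralClosure R L) :=
    Fermat.Agent.S55.L.H661.intClosure_finite R K L (integralClosure R L)
  haveI : Module.Free R (integralClosure R L) :=
    Fermat.Agent.S55.L.H661.intClosure_free R K L (integralClosure R L)
  have hmax := map_maximalIdeal_eq_of_fieldUnram (R := R) (K := K) (L := L) hunr
  -- `u` as a unit of `R`
  obtain ⟨r, hr⟩ := IsIntegrallyClosed.isIntegral_iff.mp hu
  obtain ⟨s, hs⟩ := IsIntegrallyClosed.isIntegral_iff.mp hu'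
  have hrs : r * s = 1 := by
    apply IsFractionRing.injective R K
    rw [map_mul, hr, hs, map_one, mul_inv_cancel₀ hu0]
  let u₀ : Rˣ := ⟨r, s, hrs, by rw [mul_comm]; exact hrs⟩
  obtain ⟨v, hv⟩ :=
    Fermat.Agent.S55.L.H661.unitsMap_norm_surjective_of_map_maximalIdeal_eq
      (A := R) (B := integralClosure R L) hmax u₀
  have hv' : Algebra.norm R (v : integralClosure R L) = r := by
    have := congrArg (fun z : Rˣ => (z : R)) hv
    simpa [u₀] using this
  haveI : IsLocalization (Algebra.algebraMapSubmonoid (integralClosure R L) R⁰) L :=
    IsIntegralClosure.isLocalization R K L (integralClosure R L)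
  have hn : Algebra.norm K (algebraMap (integralClosure R L) L (v : integralClosure R L)) =
      algebraMap R K (Algebra.norm R (v : integralClosure R L)) :=
    Algebra.norm_localization R R⁰ (v : integralClosure R L)
  have hvL : ((v : integralClosure R L) : L) * (((v⁻¹ : (integralClosure R L)ˣ) :
      integralClosure R L) : L) = 1 := by
    rw [← MulMemClass.coe_mul, Units.mul_inv]; rfl
  refine ⟨((v : integralClosure R L) : L), left_ne_zero_of_mul_eq_one hvL,
    (v : integralClosure R L).2, ?_, ?_⟩
  · rw [inv_eq_of_mul_eq_one_right hvL]
    exact ((v⁻¹ : (integralClosure R L)ˣ) : integralClosure R L).2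
  · rw [← hr, ← hv']
    exact hn

end Core

end Fermat.Agent.S55.Local.H374
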