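import Fermat.Agent.S55.Local.Spec
import Fermat.Agent.S55.Local.H374.UnramNormCore

/-!
# S55, layer L, leaf UR4 (helper374): `UnramNormUnitsStatement`

In an unramified extension `L / K` of local fields every unit of (the ring of integers of) `K` is
the norm of a unit of `L`.

Main result: `Fermat.Agent.S55.Local.H374.unramNormUnits : UnramNormUnitsStatement`.

Proof: with `O_K` the integral closure of the base ring `A` in `K` (a complete discrete valuation
ring with finite residue field, by helper661's `IntClosure`), the hypothesis `IsUnram` is the
field-form hypothesis `FieldUnram O_K K L` of `UnramNormCore`, and integrality over `A` is the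
same as integrality over `O_K`.
-/

set_option autoImplicit false
set_option linter.unusedSectionVars false
set_option linter.style.haveILetI false

namespace Fermat.Agent.S55.Local.H374

open IsLocalRing Fermat.Agent.S55.Local

/-- (UR4), with explicit binders. -/
theorem exists_mem_intUnits_normUnits_eq (A F : Type) [CommRing A] [IsDomain A]
    [IsDiscreteValuationRing A]
    [IsAdicComplete (IsLocalRing.maximalIdeal A) A] [Finite (IsLocalRing.ResidueField A)]
    [Field F] [CharZero F] [Algebra A F] [IsFractionRing A F]
    (K : Type) [Field K] [Algebra F K] [FiniteDimensional F K]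
    (L : Type) [Field L] [Algebra F L] [Algebra K L] [IsScalarTower F K L]
    [FiniteDimensional K L] [IsGalois K L]
    (hunr : IsUnram A F L K) (u : Kˣ) (hu : u ∈ intUnits A F K) :
    ∃ w ∈ intUnits A F L, normUnits L K w = u := by
  letI algAK : Algebra A K := (toL A F K).toAlgebra
  haveI towAFK : IsScalarTower A F K := IsScalarTower.of_algebraMap_eq (fun _ => rfl)
  letI algAL : Algebra A L := (toL A F L).toAlgebra
  haveI towAFL : IsScalarTower A F L := IsScalarTower.of_algebraMap_eq (fun _ => rfl)
  haveI towAKL : IsScalarTower A K L := IsScalarTower.of_algebraMap_eq (fun a => by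
    change toL A F L a = algebraMap K L (toL A F K a)
    rw [toL_apply, toL_apply, ← IsScalarTower.algebraMap_apply F K L])
  -- the ring of integers of `K`
  haveI : IsLocalRing (integralClosure A K) :=
    Fermat.Agent.S55.L.H661.intClosure_isLocalRing A F K _
  haveI : IsDiscreteValuationRing (integralClosure A K) :=
    Fermat.Agent.S55.L.H661.intClosure_isDVR A F K _
  haveI : IsAdicComplete (maximalIdeal (integralClosure A K)) (integralClosure A K) :=
    Fermat.Agent.S55.L.H661.intClosure_isAdicComplete A F K _
  haveI : Finite (ResidueField (integralClosure A K)) :=
    Fermat.Agent.S55.L.H661.intClosure_finite_residueField A F K _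
  haveI : IsFractionRing (integralClosure A K) K :=
    Fermat.Agent.S55.L.H661.intClosure_isFractionRing A F K _
  haveI towOKL : IsScalarTower (integralClosure A K) K L := inferInstance
  haveI towAOL : IsScalarTower A (integralClosure A K) L :=
    IsScalarTower.of_algebraMap_eq (fun a => by
      change algebraMap A L a = algebraMap K L (algebraMap (integralClosure A K) K
        (algebraMap A (integralClosure A K) a))
      rw [← IsScalarTower.algebraMap_apply A (integralClosure A K) K,
        ← IsScalarTower.algebraMap_apply A K L])
  haveI : Algebra.IsIntegral A (integralClosure A K) := inferInstance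
  -- integrality over `O_K` is integrality over `A`
  have hintL : ∀ x : L, IsIntegral (integralClosure A K) x ↔ IsInt A F L x := by
    intro x
    constructor
    · intro hx
      exact isIntegral_trans (R := A) x hx
    · intro hx
      have hx' : IsIntegral A x := hx
      exact hx'.tower_top
  have hintK : ∀ y : K, IsIntegral (integralClosure A K) y ↔ IsInt A F K y := by
    intro y
    constructor
    · intro hy
      exact isIntegral_trans (R := A) y hy
    · intro hy
      have hy' : IsIntegral A y := hy
      exact hy'.tower_top
  -- the field-form unramifiedness
  have hfu : FieldUnram (integralClosure A K) K L := by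
    intro x hx
    obtain ⟨y, hy⟩ := hunr (Units.mk0 x hx)
    refine ⟨(y : K), y.ne_zero, ?_, ?_⟩
    · rw [hintL]
      have := hy.1
      simpa using this
    · rw [hintL]
      have := hy.2
      simpa [mul_comm] using this
  obtain ⟨w, hw0, hw, hw', hN⟩ :=
    exists_integral_norm_eq_of_fieldUnram (R := integralClosure A K) (K := K) (L := L) hfu
      (u : K) ((hintK _).mpr hu.1)
      ((hintK _).mpr (by simpa using hu.2)) u.ne_zero
  refine ⟨Units.mk0 w hw0, ⟨(hintL _).mp hw, ?_⟩, ?_⟩
  · have := (hintL _).mp hw'
    simpa using this
  · apply Units.ext
    rw [normUnits_coe]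
    exact hN

/-- **(UR4)** in an unramified extension every unit of `K` is the norm of a unit of `L`. -/
theorem unramNormUnits : UnramNormUnitsStatement := by
  intro A F _ _ _ _ _ _ _ _ _ K _ _ _ L _ _ _ _ _ _ hunr u hu
  exact exists_mem_intUnits_normUnits_eq A F K L hunr u hu

end Fermat.Agent.S55.Local.H374
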